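/-
P-ORD (S33), block (G-B), row 1145 ORD-GB-N4 [N-BASIS] (helper29).

`liftBasisN : Fermat.Agent.H94.ORD.LiftBasisN` : for `n` large the GLUED space
`W = {(x, y) ∈ L(n Q_∞) × L(n Q_0) glued}` has a basis of reductions of inertia-fixed elements of
`O ∩ L(n P_∞ + n P_0)`, and its dimension is `2 n + 1 - g`.

Proof.  `W` is the kernel of the difference `E_∞ - E_0` of the two node-evaluation maps
`L(n Q_∞) → k^ι`, `L(n Q_0) → k^ι`.  For `n` large `E_∞` is onto (its kernel lies in
`L(n Q_∞ - ∑ nodes)`, of codimension `#ι` by Riemann), hence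
`dim W = (n + 1 - g_∞) + (n + 1 - g_0) - #ι = 2 n + 1 - g` by [NC].  A basis of `W` is lifted
vector by vector with `NodalLift.lift`.
-/
import Fermat.Agent.H94.ORD.JacInterfaces
import Fermat.Agent.H94.FF.Val

set_option autoImplicit false
set_option synthInstance.maxHeartbeats 400000
set_option linter.unusedSectionVars false
set_option linter.style.haveILetI false
set_option linter.deprecated false

noncomputable section

open AlgebraicCurve ModularCurve Fermat.Agent.H27.ESD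

namespace Fermat.Agent.H29.ORD

open Fermat.Agent.H10.FF Fermat.Agent.H72.FF Fermat.Agent.H18.ORD Fermat.Agent.H92.ORD
  Fermat.Agent.H94.FF Fermat.Agent.H94.ORD

section General

variable {K F : Type*} [Field K] [Field F] [Algebra K F]

/-- the value at `v` of the elements of a space of functions regular at `v`, as a linear map -/
def lbnEval (v : Place K F) (hv : v.deg = 1) (L : Submodule K F)
    (hL : ∀ x ∈ L, 0 ≤ v.ord x) : L →ₗ[K] K where
  toFun x := Classical.choose (exists_hasVal (P := v) hv (hL x x.2))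
  map_add' x y := by
    have hx := Classical.choose_spec (exists_hasVal (P := v) hv (hL x x.2))
    have hy := Classical.choose_spec (exists_hasVal (P := v) hv (hL y y.2))
    have hxy := Classical.choose_spec (exists_hasVal (P := v) hv (hL (x + y) (x + y).2))
    exact HasVal.unique hxy (hx.add hy)
  map_smul' c x := by
    have hx := Classical.choose_spec (exists_hasVal (P := v) hv (hL x x.2))
    have hcx := Classical.choose_spec (exists_hasVal (P := v) hv (hL (c • x) (c • x).2))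
    refine HasVal.unique hcx ?_
    rw [Algebra.smul_def, RingHom.id_apply, smul_eq_mul]
    exact hx.const_mul c

theorem lbnEval_spec (v : Place K F) (hv : v.deg = 1) (L : Submodule K F)
    (hL : ∀ x ∈ L, 0 ≤ v.ord x) (x : L) : HasVal v (x : F) (lbnEval v hv L hL x) :=
  Classical.choose_spec (exists_hasVal (P := v) hv (hL x x.2))

theorem lbnEval_eq (v : Place K F) (hv : v.deg = 1) (L : Submodule K F)
    (hL : ∀ x ∈ L, 0 ≤ v.ord x) (x : L) {c : K} (h : HasVal v (x : F) c) :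
    lbnEval v hv L hL x = c :=
  HasVal.unique (lbnEval_spec v hv L hL x) h

/-- elements of `L(n Q)` are regular away from `Q` -/
theorem lbn_ord_nonneg {Q v : Place K F} {n : ℤ} {x : F}
    (hx : x ∈ riemannRochSpace (Finsupp.single Q n)) (hv : v ≠ Q) : 0 ≤ v.ord x := by
  classical
  rcases (mem_riemannRochSpace_iff.mp hx) v with h | h
  · rw [h, Place.ord_zero]
  · rw [Finsupp.single_apply, if_neg (fun h' => hv h'.symm), neg_zero] at h
    exact h

/-- the evaluation at the nodes on `L(n Q)` -/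
def lbnNodeEval (hdeg : ∀ v : Place K F, v.deg = 1) {ι : Type*} (Q : Place K F)
    (nodes : ι → Place K F) (hQ : Q ∉ Set.range nodes) (n : ℕ) :
    riemannRochSpace (Finsupp.single Q (n : ℤ)) →ₗ[K] (ι → K) :=
  LinearMap.pi fun ν => lbnEval (nodes ν) (hdeg _) _
    (fun _ hx => lbn_ord_nonneg hx (fun h => hQ ⟨ν, h⟩))

theorem lbnNodeEval_spec (hdeg : ∀ v : Place K F, v.deg = 1) {ι : Type*} (Q : Place K F)
    (nodes : ι → Place K F) (hQ : Q ∉ Set.range nodes) (n : ℕ)
    (x : riemannRochSpace (Finsupp.single Q (n : ℤ))) (ν : ι) :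
    HasVal (nodes ν) (x : F) (lbnNodeEval hdeg Q nodes hQ n x ν) := by
  unfold lbnNodeEval
  rw [LinearMap.pi_apply]
  exact lbnEval_spec _ _ _ _ x

theorem lbnNodeEval_eq (hdeg : ∀ v : Place K F, v.deg = 1) {ι : Type*} (Q : Place K F)
    (nodes : ι → Place K F) (hQ : Q ∉ Set.range nodes) (n : ℕ)
    (x : riemannRochSpace (Finsupp.single Q (n : ℤ))) (ν : ι) {c : K}
    (h : HasVal (nodes ν) (x : F) c) : lbnNodeEval hdeg Q nodes hQ n x ν = c :=
  HasVal.unique (lbnNodeEval_spec hdeg Q nodes hQ n x ν) h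

/-- the divisor `n Q - ∑ nodes` -/
def lbnDiv {ι : Type*} [Fintype ι] (Q : Place K F) (nodes : ι → Place K F) (n : ℕ) :
    Divisor K F :=
  Finsupp.single Q (n : ℤ) - ∑ ν, Finsupp.single (nodes ν) (1 : ℤ)

theorem lbn_degree_div (hdeg : ∀ v : Place K F, v.deg = 1) {ι : Type*} [Fintype ι]
    (Q : Place K F) (nodes : ι → Place K F) (n : ℕ) :
    Divisor.degree (lbnDiv Q nodes n) = (n : ℤ) - (Fintype.card ι : ℤ) := by
  unfold lbnDiv
  rw [map_sub, map_sum, Divisor.degree_single, hdeg Q]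
  simp only [Divisor.degree_single, hdeg, Nat.cast_one, mul_one, Finset.sum_const,
    Finset.card_univ, nsmul_eq_mul]

theorem lbn_sum_single_apply {ι : Type*} [Fintype ι] (nodes : ι → Place K F)
    (hinj : Function.Injective nodes) (w : Place K F) :
    ((∑ ν, Finsupp.single (nodes ν) (1 : ℤ) : Divisor K F) w = 0 ∧ w ∉ Set.range nodes) ∨
      ((∑ ν, Finsupp.single (nodes ν) (1 : ℤ) : Divisor K F) w = 1 ∧ w ∈ Set.range nodes) := by
  classical
  rw [Finsupp.finset_sum_apply]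
  by_cases hw : w ∈ Set.range nodes
  · right
    refine ⟨?_, hw⟩
    obtain ⟨ν, rfl⟩ := hw
    rw [Finset.sum_eq_single ν]
    · rw [Finsupp.single_eq_same]
    · intro μ _ hμ
      rw [Finsupp.single_apply, if_neg (fun h => hμ (hinj h))]
    · intro h
      exact absurd (Finset.mem_univ ν) h
  · left
    refine ⟨?_, hw⟩
    refine Finset.sum_eq_zero fun μ _ => ?_
    rw [Finsupp.single_apply, if_neg (fun h => hw ⟨μ, h⟩)]

/-- a section of `L(n Q)` vanishing at all nodes lies in `L(n Q - ∑ nodes)` -/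
theorem lbn_mem_div_of_vanish {ι : Type*} [Fintype ι] (Q : Place K F) (nodes : ι → Place K F)
    (hinj : Function.Injective nodes) (hQ : Q ∉ Set.range nodes) (n : ℕ) {x : F}
    (hx : x ∈ riemannRochSpace (Finsupp.single Q (n : ℤ)))
    (h0 : ∀ ν, HasVal (nodes ν) x 0) : x ∈ riemannRochSpace (lbnDiv Q nodes n) := by
  classical
  rw [mem_riemannRochSpace_iff]
  intro w
  by_cases hx0 : x = 0
  · exact Or.inl hx0
  right
  unfold lbnDiv
  rw [Finsupp.sub_apply]
  rcases lbn_sum_single_apply nodes hinj w with ⟨h1, -⟩ | ⟨h1, ⟨ν, rfl⟩⟩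
  · rw [h1, sub_zero]
    exact ((mem_riemannRochSpace_iff.mp hx) w).resolve_left hx0
  · rw [h1, Finsupp.single_apply, if_neg (fun h => hQ ⟨ν, h.symm⟩)]
    have h2 := ((hasVal_zero_iff (nodes ν)).mp (h0 ν)).resolve_left hx0
    omega

/-- **Surjectivity of the node evaluation** on `L(n Q)` for `n` large, with the dimension of
`L(n Q)`. -/
theorem lbn_nodeEval_surjective {g : ℕ} (hR : RiemannPackage K F g) {ι : Type*} [Fintype ι]
    (Q : Place K F) (nodes : ι → Place K F) (hinj : Function.Injective nodes)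
    (hQ : Q ∉ Set.range nodes) :
    ∃ n₀ : ℕ, ∀ n : ℕ, n₀ ≤ n →
      (Module.finrank K (riemannRochSpace (Finsupp.single Q (n : ℤ))) : ℤ) =
          (n : ℤ) + 1 - (g : ℤ) ∧
        Function.Surjective (lbnNodeEval hR.deg_one Q nodes hQ n) := by
  classical
  obtain ⟨c, hc⟩ := hR.eq_of_large
  refine ⟨(c + (Fintype.card ι : ℤ)).toNat, fun n hn => ?_⟩
  have hn1 : c + (Fintype.card ι : ℤ) ≤ (n : ℤ) := by
    have h2 := Int.self_le_toNat (c + (Fintype.card ι : ℤ))
    exact h2.trans (by exact_mod_cast hn)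
  have hcard : (0 : ℤ) ≤ (Fintype.card ι : ℤ) := Int.natCast_nonneg _
  have hdeg : Divisor.degree (Finsupp.single Q (n : ℤ)) = (n : ℤ) := by
    rw [Divisor.degree_single, hR.deg_one]
    simp
  have hrank := hc (Finsupp.single Q (n : ℤ)) (by rw [hdeg]; omega)
  rw [hdeg] at hrank
  have hrank' := hc (lbnDiv Q nodes n) (by rw [lbn_degree_div hR.deg_one]; omega)
  rw [lbn_degree_div hR.deg_one] at hrank'
  refine ⟨hrank, ?_⟩
  haveI hfin : Module.Finite K (riemannRochSpace (Finsupp.single Q (n : ℤ))) := hR.finite _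
  haveI hfin' : Module.Finite K (riemannRochSpace (lbnDiv Q nodes n)) := hR.finite _
  set L := riemannRochSpace (Finsupp.single Q (n : ℤ)) with hL
  set E := lbnNodeEval hR.deg_one Q nodes hQ n with hE
  -- the kernel lies in `L(n Q - ∑ nodes)`
  have hker : (LinearMap.ker E).map L.subtype ≤ riemannRochSpace (lbnDiv Q nodes n) := by
    rintro _ ⟨x, hx, rfl⟩
    refine lbn_mem_div_of_vanish Q nodes hinj hQ n x.2 fun ν => ?_
    have h1 := lbnNodeEval_spec hR.deg_one Q nodes hQ n x ν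
    have h2 : E x = 0 := hx
    rw [← hE, h2] at h1
    exact h1
  have hker1 : Module.finrank K (LinearMap.ker E) ≤
      Module.finrank K (riemannRochSpace (lbnDiv Q nodes n)) := by
    have h1 : Module.finrank K ((LinearMap.ker E).map L.subtype) =
        Module.finrank K (LinearMap.ker E) :=
      (Submodule.equivMapOfInjective L.subtype L.injective_subtype (LinearMap.ker E)).finrank_eq.symm
    rw [← h1]
    exact Submodule.finrank_mono hker
  have hrn := LinearMap.finrank_range_add_finrank_ker E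
  have hrange : Module.finrank K (LinearMap.range E) = Module.finrank K (ι → K) := by
    have h1 : Module.finrank K (LinearMap.range E) ≤ Module.finrank K (ι → K) :=
      Submodule.finrank_le _
    have h2 : Module.finrank K (ι → K) = Fintype.card ι := Module.finrank_fintype_fun_eq_card K
    rw [h2] at h1 ⊢
    have h3 : (Module.finrank K (LinearMap.ker E) : ℤ) ≤
        (Module.finrank K (riemannRochSpace (lbnDiv Q nodes n)) : ℤ) := by exact_mod_cast hker1
    have h4 : (Module.finrank K (LinearMap.range E) : ℤ) +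
        (Module.finrank K (LinearMap.ker E) : ℤ) = (Module.finrank K L : ℤ) := by
      exact_mod_cast hrn
    have h5 : (Module.finrank K (LinearMap.range E) : ℤ) ≤ (Fintype.card ι : ℤ) := by
      exact_mod_cast h1
    have h6 : (Module.finrank K (LinearMap.range E) : ℤ) = (Fintype.card ι : ℤ) := by
      omega
    exact_mod_cast h6
  exact LinearMap.range_eq_top.mp (Submodule.eq_top_of_finrank_eq hrange)

end General

section Glue

variable {K Foo F0 : Type*} [Field K] [Field Foo] [Field F0] [Algebra K Foo] [Algebra K F0]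

/-- the difference of the two node evaluations on `L(n Q_∞) × L(n Q_0)` -/
def lbnGlueMap (hoo : ∀ v : Place K Foo, v.deg = 1) (h0 : ∀ v : Place K F0, v.deg = 1)
    {ι : Type*} (Qoo : Place K Foo) (Q0 : Place K F0) (nOo : ι → Place K Foo)
    (n0 : ι → Place K F0) (hQoo : Qoo ∉ Set.range nOo) (hQ0 : Q0 ∉ Set.range n0) (n : ℕ) :
    (riemannRochSpace (Finsupp.single Qoo (n : ℤ)) ×
      riemannRochSpace (Finsupp.single Q0 (n : ℤ))) →ₗ[K] (ι → K) :=
  (lbnNodeEval hoo Qoo nOo hQoo n).coprod (-(lbnNodeEval h0 Q0 n0 hQ0 n))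

theorem lbn_mem_ker_glueMap (hoo : ∀ v : Place K Foo, v.deg = 1)
    (h0 : ∀ v : Place K F0, v.deg = 1)
    {ι : Type*} (Qoo : Place K Foo) (Q0 : Place K F0) (nOo : ι → Place K Foo)
    (n0 : ι → Place K F0) (hQoo : Qoo ∉ Set.range nOo) (hQ0 : Q0 ∉ Set.range n0) (n : ℕ)
    (w : riemannRochSpace (Finsupp.single Qoo (n : ℤ)) ×
      riemannRochSpace (Finsupp.single Q0 (n : ℤ))) :
    w ∈ LinearMap.ker (lbnGlueMap hoo h0 Qoo Q0 nOo n0 hQoo hQ0 n) ↔
      ∀ ν, ∃ κ : K, HasVal (nOo ν) (w.1 : Foo) κ ∧ HasVal (n0 ν) (w.2 : F0) κ := by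
  rw [LinearMap.mem_ker]
  unfold lbnGlueMap
  rw [LinearMap.coprod_apply, LinearMap.neg_apply, add_neg_eq_zero]
  constructor
  · intro h ν
    refine ⟨lbnNodeEval hoo Qoo nOo hQoo n w.1 ν, lbnNodeEval_spec hoo Qoo nOo hQoo n w.1 ν, ?_⟩
    rw [h]
    exact lbnNodeEval_spec h0 Q0 n0 hQ0 n w.2 ν
  · intro h
    funext ν
    obtain ⟨κ, h1, h2⟩ := h ν
    rw [lbnNodeEval_eq hoo Qoo nOo hQoo n w.1 ν h1, lbnNodeEval_eq h0 Q0 n0 hQ0 n w.2 ν h2]

/-- the dimension of the glued space -/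
theorem lbn_finrank_ker_glueMap (hoo : ∀ v : Place K Foo, v.deg = 1)
    (h0 : ∀ v : Place K F0, v.deg = 1)
    {ι : Type*} [Fintype ι] (Qoo : Place K Foo) (Q0 : Place K F0) (nOo : ι → Place K Foo)
    (n0 : ι → Place K F0) (hQoo : Qoo ∉ Set.range nOo) (hQ0 : Q0 ∉ Set.range n0) (n : ℕ)
    [Module.Finite K (riemannRochSpace (Finsupp.single Qoo (n : ℤ)))]
    [Module.Finite K (riemannRochSpace (Finsupp.single Q0 (n : ℤ)))]
    (hsurj : Function.Surjective (lbnNodeEval hoo Qoo nOo hQoo n)) :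
    (Module.finrank K (LinearMap.ker (lbnGlueMap hoo h0 Qoo Q0 nOo n0 hQoo hQ0 n)) : ℤ) =
      (Module.finrank K (riemannRochSpace (Finsupp.single Qoo (n : ℤ))) : ℤ) +
        (Module.finrank K (riemannRochSpace (Finsupp.single Q0 (n : ℤ))) : ℤ) -
          (Fintype.card ι : ℤ) := by
  have hrn := LinearMap.finrank_range_add_finrank_ker
    (lbnGlueMap hoo h0 Qoo Q0 nOo n0 hQoo hQ0 n)
  have hrange : LinearMap.range (lbnGlueMap hoo h0 Qoo Q0 nOo n0 hQoo hQ0 n) = ⊤ := by
    unfold lbnGlueMap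
    rw [LinearMap.range_coprod, LinearMap.range_eq_top.mpr hsurj, top_sup_eq]
  rw [hrange, finrank_top, Module.finrank_fintype_fun_eq_card, Module.finrank_prod] at hrn
  have h1 : ((Fintype.card ι : ℕ) : ℤ) +
      (Module.finrank K (LinearMap.ker (lbnGlueMap hoo h0 Qoo Q0 nOo n0 hQoo hQ0 n)) : ℤ) =
      (Module.finrank K (riemannRochSpace (Finsupp.single Qoo (n : ℤ))) : ℤ) +
        (Module.finrank K (riemannRochSpace (Finsupp.single Q0 (n : ℤ))) : ℤ) := by
    exact_mod_cast hrn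
  omega

variable {Loo : Submodule K Foo} {L0 : Submodule K F0}

/-- first component, as a linear map -/
def lbnP1 (W : Submodule K (Loo × L0)) : W →ₗ[K] Foo :=
  Loo.subtype ∘ₗ LinearMap.fst K Loo L0 ∘ₗ W.subtype

/-- second component, as a linear map -/
def lbnP2 (W : Submodule K (Loo × L0)) : W →ₗ[K] F0 :=
  L0.subtype ∘ₗ LinearMap.snd K Loo L0 ∘ₗ W.subtype

theorem lbnP1_apply (W : Submodule K (Loo × L0)) (w : W) :
    lbnP1 W w = (((w : Loo × L0).1 : Loo) : Foo) := rfl

theorem lbnP2_apply (W : Submodule K (Loo × L0)) (w : W) :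
    lbnP2 W w = (((w : Loo × L0).2 : L0) : F0) := rfl

theorem lbn_eq_zero_of_P (W : Submodule K (Loo × L0)) (w : W) (h1 : lbnP1 W w = 0)
    (h2 : lbnP2 W w = 0) : w = 0 := by
  apply Subtype.ext
  apply Prod.ext
  · exact Subtype.ext h1
  · exact Subtype.ext h2

theorem lbn_indep (W : Submodule K (Loo × L0)) {d : ℕ} (b : Module.Basis (Fin d) K W)
    (c : Fin d → K) (h1 : ∑ j, algebraMap K Foo (c j) * lbnP1 W (b j) = 0)
    (h2 : ∑ j, algebraMap K F0 (c j) * lbnP2 W (b j) = 0) : c = 0 := by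
  have hw : ∑ j, c j • b j = 0 := by
    apply lbn_eq_zero_of_P
    · rw [map_sum, ← h1]
      refine Finset.sum_congr rfl fun j _ => ?_
      rw [map_smul, Algebra.smul_def]
    · rw [map_sum, ← h2]
      refine Finset.sum_congr rfl fun j _ => ?_
      rw [map_smul, Algebra.smul_def]
  have h3 := b.repr_sum_self c
  rw [hw, map_zero, Finsupp.coe_zero] at h3
  exact h3.symm

theorem lbn_span (W : Submodule K (Loo × L0)) {d : ℕ} (b : Module.Basis (Fin d) K W) (w : W) :
    lbnP1 W w = ∑ j, algebraMap K Foo (b.repr w j) * lbnP1 W (b j) ∧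
      lbnP2 W w = ∑ j, algebraMap K F0 (b.repr w j) * lbnP2 W (b j) := by
  have h1 : w = ∑ j, b.repr w j • b j := (b.sum_repr w).symm
  constructor
  · conv_lhs => rw [h1]
    rw [map_sum]
    refine Finset.sum_congr rfl fun j _ => ?_
    rw [map_smul, Algebra.smul_def]
  · conv_lhs => rw [h1]
    rw [map_sum]
    refine Finset.sum_congr rfl fun j _ => ?_
    rw [map_smul, Algebra.smul_def]

/-- a basis of a subspace of `L_∞ × L_0`, in components -/
theorem lbn_exists_basis [Module.Finite K Loo] [Module.Finite K L0]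
    (W : Submodule K (Loo × L0)) :
    ∃ b : Fin (Module.finrank K W) → W,
      (∀ c : Fin (Module.finrank K W) → K,
        ∑ j, algebraMap K Foo (c j) * lbnP1 W (b j) = 0 →
        ∑ j, algebraMap K F0 (c j) * lbnP2 W (b j) = 0 → c = 0) ∧
      ∀ w : W, ∃ c : Fin (Module.finrank K W) → K,
        lbnP1 W w = ∑ j, algebraMap K Foo (c j) * lbnP1 W (b j) ∧
        lbnP2 W w = ∑ j, algebraMap K F0 (c j) * lbnP2 W (b j) := by
  haveI : Module.Free K W := Module.Free.of_divisionRing K W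
  let b := Module.finBasis K W
  exact ⟨b, fun c h1 h2 => lbn_indep W b c h1 h2,
    fun w => ⟨fun j => b.repr w j, lbn_span W b w⟩⟩

end Glue

section Main

variable {N : ℕ} {A : ValuationSubring Qb} {Foo F0 : Type} [Field Foo] [Field F0]
  [Algebra (kRes A) Foo] [Algebra (kRes A) F0] {ι : Type}

/-- `IsGlued` in terms of values -/
theorem lbn_isGlued_iff (G : NodalData N A Foo F0 ι) (x : Foo) (y : F0) :
    IsGlued G x y ↔ ∀ ν, ∃ κ : kRes A, HasVal (G.nOo ν) x κ ∧ HasVal (G.n0 ν) y κ := by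
  unfold IsGlued
  refine forall_congr' fun ν => exists_congr fun κ => ?_
  rw [nb_mem_nonunits_iff, nb_mem_nonunits_iff, sub_eq_zero, sub_eq_zero]
  rfl

end Main

/-- **[N-BASIS]** (row 1145, ORD-GB-N4). -/
theorem liftBasisN : Fermat.Agent.H94.ORD.LiftBasisN := by
  intro N p A Foo F0 instFoo instF0 algFoo algF0 ι G g hS hPkg Poo P0 Qoo Q0 hPoo hP0 hUoo hU0
  classical
  obtain ⟨gOo, gZ, hRoo, hR0, hnc⟩ := hPkg.nc g hS.pkgL
  haveI : Finite ι := hPkg.fin
  letI : Fintype ι := Fintype.ofFinite ι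
  have hQoo : Qoo ∉ Set.range G.nOo := hS.rv.r_oo Poo Qoo hPoo
  have hQ0 : Q0 ∉ Set.range G.n0 := hS.rv.r_zero P0 Q0 hP0
  obtain ⟨n₁, hn₁⟩ := hPkg.lift.lift Poo P0 Qoo Q0 hPoo hP0 hUoo hU0
  obtain ⟨n₂, hn₂⟩ := lbn_nodeEval_surjective hRoo Qoo G.nOo hS.rv.nOo_inj hQoo
  obtain ⟨n₃, hn₃⟩ := lbn_nodeEval_surjective hR0 Q0 G.n0 hS.rv.n0_inj hQ0
  refine ⟨max n₁ (max n₂ n₃), fun n hn => ?_⟩
  have hn1 : n₁ ≤ n := le_trans (le_max_left _ _) hn
  have hn2 : n₂ ≤ n := le_trans (le_trans (le_max_left _ _) (le_max_right _ _)) hn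
  have hn3 : n₃ ≤ n := le_trans (le_trans (le_max_right _ _) (le_max_right _ _)) hn
  obtain ⟨hrkoo, hsurj⟩ := hn₂ n hn2
  obtain ⟨hrk0, -⟩ := hn₃ n hn3
  haveI hfoo : Module.Finite (kRes A) (riemannRochSpace (Finsupp.single Qoo (n : ℤ))) :=
    hRoo.finite _
  haveI hf0 : Module.Finite (kRes A) (riemannRochSpace (Finsupp.single Q0 (n : ℤ))) :=
    hR0.finite _
  have hdim := lbn_finrank_ker_glueMap hRoo.deg_one hR0.deg_one Qoo Q0 G.nOo G.n0 hQoo hQ0 n
    hsurj
  have hker := lbn_mem_ker_glueMap hRoo.deg_one hR0.deg_one Qoo Q0 G.nOo G.n0 hQoo hQ0 n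
  set W := LinearMap.ker
    (lbnGlueMap hRoo.deg_one hR0.deg_one Qoo Q0 G.nOo G.n0 hQoo hQ0 n) with hW
  have hcard : (Nat.card ι : ℤ) = (Fintype.card ι : ℤ) := by
    rw [Nat.card_eq_fintype_card]
  have hd : (Module.finrank (kRes A) W : ℤ) = 2 * (n : ℤ) + 1 - (g : ℤ) := by
    rw [hdim, hrkoo, hrk0]
    rw [hcard] at hnc
    omega
  obtain ⟨b, hb1, hb2⟩ := lbn_exists_basis W
  have hlift : ∀ j : Fin (Module.finrank (kRes A) W),
      ∃ (u : FLb N) (h : u ∈ G.Voo) (h0 : u ∈ G.V0), IsUnrFn A N u ∧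
        u ∈ riemannRochSpace (Finsupp.single Poo (n : ℤ) + Finsupp.single P0 (n : ℤ)) ∧
        G.redOo ⟨u, h⟩ = lbnP1 W (b j) ∧ G.red0 ⟨u, h0⟩ = lbnP2 W (b j) := fun j =>
    hn₁ n hn1 _ (b j).1.1.2 _ (b j).1.2.2
      ((lbn_isGlued_iff G _ _).mpr ((hker (b j).1).mp (b j).2))
  choose u hu hu0 hunr hmem hredoo hred0 using hlift
  refine ⟨Module.finrank (kRes A) W, fun j => ⟨u j, Subring.mem_inf.mpr ⟨hu j, hu0 j⟩⟩, hd,
    hunr, hmem, ?_, ?_⟩
  · intro c h1 h2
    refine hb1 c ?_ ?_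
    · rw [← h1]
      exact Finset.sum_congr rfl fun j _ => by rw [← hredoo j]; rfl
    · rw [← h2]
      exact Finset.sum_congr rfl fun j _ => by rw [← hred0 j]; rfl
  · intro x hx y hy hxy
    have hw : ((⟨x, hx⟩, ⟨y, hy⟩) : riemannRochSpace (Finsupp.single Qoo (n : ℤ)) ×
        riemannRochSpace (Finsupp.single Q0 (n : ℤ))) ∈ W :=
      (hker _).mpr ((lbn_isGlued_iff G x y).mp hxy)
    obtain ⟨c, h1, h2⟩ := hb2 ⟨_, hw⟩
    refine ⟨c, ?_, ?_⟩
    · refine h1.trans ?_
      exact Finset.sum_congr rfl fun j _ => by rw [← hredoo j]; rfl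
    · refine h2.trans ?_
      exact Finset.sum_congr rfl fun j _ => by rw [← hred0 j]; rfl

end Fermat.Agent.H29.ORD
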